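import Mathlib
import Fermat.Prelude.Def_ModularCurve_IgusaScheme
import Fermat.Prelude.Def_ModularCurve_X0ModL

/-!
# S28 (Igusa): package deliverables as exact Lean propositions

Notation of the plan (findings `S28 PLAN (lead)`):
`Zl = GaloisRep.ratLocalizedAt ℓ`, `F_N = modularFunctionFieldFull N`,
`B_S = chartAlg N ℓ S` (`S = {j}`, `{j⁻¹}`, `{j, j⁻¹}`), `k = ZMod ℓ`,
`Fb_N = modularFunctionFieldFullC k N`, `D_N = [Fb_N : k(jb)]`, `ψ(N) = [SL₂(ℤ) : Γ₀(N)]`.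

Each package proves ONE (or a few) of the propositions below, VERBATIM; the assembly
(`Fermat/Agent/S28/Asm/H11_Asm.lean`) proves S28 from them.
-/

set_option autoImplicit false
open AlgebraicGeometry CategoryTheory CategoryTheory.Limits ModularCurve ModularCurve.IgusaScheme
open scoped TensorProduct

noncomputable section

namespace Fermat.Agent.S28.Asm

/-- `Z_(ℓ)` as a type. -/
abbrev Zl (ℓ : ℕ) : Type := ↥(GaloisRep.ratLocalizedAt ℓ)

/-- The modular function field `ℚ(j_d : d ∣ N)` as a type. -/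
abbrev FN (N : ℕ) : Type := ↥(modularFunctionFieldFull N)

/-- `ψ(N) = [SL₂(ℤ) : Γ₀(N)]`. -/
def psi (N : ℕ) : ℕ := Nat.card (Matrix.SpecialLinearGroup (Fin 2) ℤ ⧸ CongruenceSubgroup.Gamma0 N)

/-- The element `j` of the function field `k(j_d : d ∣ N) ⊆ k((q))`. -/
def jbFull (k : Type) [Field k] (N : ℕ) [NeZero N] : ↥(modularFunctionFieldFullC k N) :=
  ⟨jqModC k, jqModC_mem_full k N⟩

/-- The element `j_d`, `d ∣ N`, of the function field `k(j_d : d ∣ N) ⊆ k((q))`. -/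
def jbdFull (k : Type) [Field k] (N : ℕ) [NeZero N] (d : ℕ) [NeZero d] (hd : d ∣ N) :
    ↥(modularFunctionFieldFullC k N) :=
  ⟨qExpand k d (jqModC k), jqModCd_mem_full k N hd⟩

/-- `D_N(k) = [k(j_d : d ∣ N) : k(j)]` (`= 0` if the extension is infinite). -/
def degC (k : Type) [Field k] (N : ℕ) [NeZero N] : ℕ :=
  Module.finrank (IntermediateField.adjoin k {jbFull k N}) ↥(modularFunctionFieldFullC k N)

/-! ### Package SCH (scheme glue) -/

/-- **Deliverable of SCH**: the fibre is integral as soon as the two chart rings of the fibre are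
domains and the middle chart ring of the fibre is nontrivial. Tensor orientation: `B ⊗[Zl] K`. -/
def StSCH : Prop :=
  ∀ (N : ℕ) [NeZero N] (ℓ : ℕ) [Fact ℓ.Prime]
    (K : Type) [Field K] [CharP K ℓ] [Algebra (Zl ℓ) K],
    IsDomain (↥(chartAlgFin N ℓ) ⊗[Zl ℓ] K) →
    IsDomain (↥(chartAlgInf N ℓ) ⊗[Zl ℓ] K) →
    Nontrivial (↥(chartAlgMid N ℓ) ⊗[Zl ℓ] K) →
    IsIntegral ↑(pullback (igusaTo N ℓ)
      (Spec.map (CommRingCat.ofHom (algebraMap (Zl ℓ) K))))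

/-! ### Package ALG -/

/-- `QEP_B` for the chart `S`: a ring homomorphism `ρ : B_S → k((q))` with kernel `ℓ B_S`
(the `q`-expansion principle). Existential in `ρ`, so independent of how `ρ` is defined. -/
def StQEPB (N : ℕ) [NeZero N] (ℓ : ℕ) [Fact ℓ.Prime] (S : Set (FN N)) : Prop :=
  ∃ ρ : ↥(chartAlg N ℓ S) →+* LaurentSeries (ZMod ℓ),
    RingHom.ker ρ = Ideal.span {((ℓ : ℕ) : ↥(chartAlg N ℓ S))}

/-- **Deliverable TENS**: `QEP_B` for `S` ⇒ `B_S ⊗[Zl] K` is a domain, for every field `K` of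
characteristic `ℓ`. -/
def StTENS : Prop :=
  ∀ (N : ℕ) [NeZero N] (ℓ : ℕ) [Fact ℓ.Prime] (S : Set (FN N))
    (K : Type) [Field K] [CharP K ℓ] [Algebra (Zl ℓ) K],
    StQEPB N ℓ S → IsDomain (↥(chartAlg N ℓ S) ⊗[Zl ℓ] K)

/-- Degree bound in characteristic `0` (DEG0, from S24): `[F_N : ℚ(j)] ≤ ψ(N)`, finite. -/
def StDEG0 (N : ℕ) [NeZero N] : Prop :=
  FiniteDimensional (IntermediateField.adjoin ℚ {jbFull ℚ N}) ↥(modularFunctionFieldFullC ℚ N) ∧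
    degC ℚ N ≤ psi N

/-- Degree lower bound in characteristic `ℓ` (deliverable of DEG): `ψ(N) ≤ D_N`. -/
def StDEG (N : ℕ) [NeZero N] (ℓ : ℕ) [Fact ℓ.Prime] : Prop :=
  psi N ≤ degC (ZMod ℓ) N

/-- Degree upper bound in characteristic `ℓ` (by-product of QEPC, consumed by DEG):
`D_M ≤ ψ(M)`, finite. No hypothesis on `ℓ` vs `M`. -/
def StDEGU (M : ℕ) [NeZero M] (ℓ : ℕ) [Fact ℓ.Prime] : Prop :=
  FiniteDimensional (IntermediateField.adjoin (ZMod ℓ) {jbFull (ZMod ℓ) M})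
      ↥(modularFunctionFieldFullC (ZMod ℓ) M) ∧
    degC (ZMod ℓ) M ≤ psi M

/-- **Deliverable QEP (= RED + QEPC + QEPB)**: from the two degree bounds, `QEP_B` for all three
charts. -/
def StQEP : Prop :=
  ∀ (N : ℕ) [NeZero N] (ℓ : ℕ) [Fact ℓ.Prime],
    StDEG0 N → StDEG N ℓ →
      StQEPB N ℓ {jFull N} ∧ StQEPB N ℓ {(jFull N)⁻¹} ∧ StQEPB N ℓ {jFull N, (jFull N)⁻¹}

/-- **Deliverable DEGU (part of QEPC)**: `D_M ≤ [F_M : ℚ(j)] ≤ ψ(M)` for every `M`, from DEG0. -/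
def StQEPC_DEGU : Prop :=
  ∀ (M : ℕ) [NeZero M] (ℓ : ℕ) [Fact ℓ.Prime], StDEG0 M → StDEGU M ℓ

/-! ### Package DEG / PRIME -/

/-- `PRIME(p)` in characteristic `ℓ ≠ p`: `[k(j, j_p) : k(j)] = p + 1 = [k(j, j_p) : k(j_p)]`,
stated inside `Fb_p = k(j, j_p)`. -/
def StPRIME (p : ℕ) [NeZero p] (ℓ : ℕ) [Fact ℓ.Prime] : Prop :=
  Module.finrank (IntermediateField.adjoin (ZMod ℓ) {jbFull (ZMod ℓ) p})
      ↥(modularFunctionFieldFullC (ZMod ℓ) p) = p + 1 ∧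
  Module.finrank (IntermediateField.adjoin (ZMod ℓ) {jbdFull (ZMod ℓ) p p dvd_rfl})
      ↥(modularFunctionFieldFullC (ZMod ℓ) p) = p + 1

/-- **Deliverable of PRIME**. -/
def StPRIMEAll : Prop :=
  ∀ (p : ℕ) [NeZero p] (ℓ : ℕ) [Fact ℓ.Prime], p.Prime → p ≠ ℓ → StPRIME p ℓ

/-- **Deliverable of DEG**: `ψ(N) ≤ D_N` for `ℓ ∤ N`, from `PRIME` and the upper bounds. -/
def StDEGAll : Prop :=
  StPRIMEAll → (∀ (M : ℕ) [NeZero M] (ℓ : ℕ) [Fact ℓ.Prime], StDEGU M ℓ) →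
    ∀ (N : ℕ) [NeZero N] (ℓ : ℕ) [Fact ℓ.Prime], ¬ ℓ ∣ N → StDEG N ℓ

/-- **Deliverable of MOD (i)**: DEG0 for every level. -/
def StDEG0All : Prop := ∀ (N : ℕ) [NeZero N], StDEG0 N

end Fermat.Agent.S28.Asm
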