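import Fermat.Agent.S28.Asm.H27_Wire2
import Fermat.Agent.S28.Alg.H6_QbFin
import Fermat.Agent.S28.Alg.H5_Sat
import Fermat.Agent.S28.Alg.H29_Degu

/-!
# S28: all packages closed (helper27, CI)

* `stQEP : Asm.StQEP`  (package ALG: `H6.stQEP_of_sat`, `H5.stSat_fin / stSat_inf`,
  `H29.stBasis'`);
* `stQEPC_DEGU : Asm.StQEPC_DEGU`  (`H29.stQEPC_DEGU`);
* `result_final` : the statement S28.
-/

set_option autoImplicit false
open AlgebraicGeometry CategoryTheory CategoryTheory.Limits ModularCurve ModularCurve.IgusaScheme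
open scoped TensorProduct

noncomputable section

namespace Fermat.Agent.S28.Asm.H27

open Fermat.Agent.S28

/-- **Deliverable (ALG-1)**: the `q`-expansion principle for the three charts. -/
theorem stQEP : Asm.StQEP :=
  Alg.H6.stQEP_of_sat
    (fun N _ ℓ _ h0 h1 => Alg.H5.stSat_fin ℓ N (Alg.H29.stBasis' N ℓ) h0 h1)
    (fun N _ ℓ _ h0 h1 => Alg.H5.stSat_inf ℓ N (Alg.H29.stBasis' N ℓ) h0 h1)

/-- **Deliverable (ALG-2)**: the upper bound `D_M ≤ ψ(M)` in characteristic `ℓ`. -/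
theorem stQEPC_DEGU : Asm.StQEPC_DEGU := Alg.H29.stQEPC_DEGU

set_option maxHeartbeats 4000000 in
set_option synthInstance.maxHeartbeats 400000 in
/-- **S28 (Igusa)**: for `ℓ ∤ N` the fibre of the Igusa model of `X₀(N)` over any field of
characteristic `ℓ` is integral. -/
theorem result_final
    (N : ℕ) [NeZero N] (ℓ : ℕ) [Fact ℓ.Prime] (hℓN : ¬ ℓ ∣ N)
    (K : Type) [Field K] [CharP K ℓ] [Algebra ↥(GaloisRep.ratLocalizedAt ℓ) K] :
    IsIntegral ↑(pullback (igusaTo N ℓ)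
      (Spec.map (CommRingCat.ofHom (algebraMap ↥(GaloisRep.ratLocalizedAt ℓ) K)))) :=
  result_of_alg stQEP stQEPC_DEGU N ℓ hℓN K

end Fermat.Agent.S28.Asm.H27
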