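import Fermat.Agent.S28.Asm.Defs

/-!
# S28: the degree `degC` in terms of `relfinrank` inside `k((q))`

`degC k N = [k(j_d : d ∣ N) : k(j)]` was defined as a `finrank` over the intermediate field
`k⟮j⟯` of the FIELD `modularFunctionFieldFullC k N`.  Here: the same number as the relative
finrank of two intermediate fields (or subfields) of `k((q))`, so that Mathlib's
`Subfield.relfinrank` calculus (tower law, `relfinrank_map_map`, ...) applies.
-/

set_option autoImplicit false
open ModularCurve ModularCurve.IgusaScheme IntermediateField

noncomputable section

namespace Fermat.Agent.S28.Asm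

variable (k : Type) [Field k] (N : ℕ) [NeZero N]

/-- `k(j)` as an intermediate field of `k((q)) / k`. -/
def kj : IntermediateField k (LaurentSeries k) := IntermediateField.adjoin k {jqModC k}

/-- `k(j_d)` as an intermediate field of `k((q)) / k`. -/
def kjd (d : ℕ) [NeZero d] : IntermediateField k (LaurentSeries k) :=
  IntermediateField.adjoin k {qExpand k d (jqModC k)}

omit [NeZero N] in
lemma kj_le_full : kj k ≤ modularFunctionFieldFullC k N := by
  rw [kj, adjoin_le_iff]
  rintro x rfl
  exact jqModC_mem_full k N

omit [NeZero N] in
lemma kjd_le_full (d : ℕ) [NeZero d] (hd : d ∣ N) : kjd k d ≤ modularFunctionFieldFullC k N := by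
  rw [kjd, adjoin_le_iff]
  rintro x rfl
  exact jqModCd_mem_full k N hd

/-- Generic bridge: for an intermediate field `L` of `E / k` and `x ∈ L`,
`[L : k(x)]` computed inside `L` equals the relative finrank computed inside `E`. -/
theorem finrank_adjoin_eq_relfinrank {E : Type*} [Field E] [Algebra k E]
    (L : IntermediateField k E) (x : L) :
    Module.finrank (IntermediateField.adjoin k {x}) L =
      IntermediateField.relfinrank (IntermediateField.adjoin k {(x : E)}) L := by
  have hle : IntermediateField.adjoin k {(x : E)} ≤ L := by
    rw [adjoin_le_iff]
    rintro y rfl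
    exact x.2
  rw [IntermediateField.relfinrank_eq_finrank_of_le hle]
  have hmap : (IntermediateField.adjoin k {x}).map L.val = IntermediateField.adjoin k {(x : E)} := by
    rw [IntermediateField.adjoin_map, Set.image_singleton]
    rfl
  -- the two ring isomorphisms
  let i : ↥(IntermediateField.adjoin k {x}) ≃+* ↥(IntermediateField.adjoin k {(x : E)}) :=
    ((IntermediateField.equivMap (IntermediateField.adjoin k {x}) L.val).toRingEquiv).trans
      (RingEquiv.subringCongr (congrArg (fun M : IntermediateField k E => M.toSubring) hmap))
  let j : ↥L ≃+* ↥(IntermediateField.extendScalars hle) := RingEquiv.refl _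
  refine Algebra.finrank_eq_of_equiv_equiv i j ?_
  ext a
  rfl

/-- `degC k N` as a relative finrank inside `k((q))`. -/
theorem degC_eq_relfinrank :
    degC k N = IntermediateField.relfinrank (kj k) (modularFunctionFieldFullC k N) :=
  finrank_adjoin_eq_relfinrank k (modularFunctionFieldFullC k N) (jbFull k N)

/-- The second degree in `StPRIME` as a relative finrank inside `k((q))`. -/
theorem finrank_jbd_eq_relfinrank (d : ℕ) [NeZero d] (hd : d ∣ N) :
    Module.finrank (IntermediateField.adjoin k {jbdFull k N d hd})
        ↥(modularFunctionFieldFullC k N) =
      IntermediateField.relfinrank (kjd k d) (modularFunctionFieldFullC k N) :=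
  finrank_adjoin_eq_relfinrank k (modularFunctionFieldFullC k N) (jbdFull k N d hd)

end Fermat.Agent.S28.Asm
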