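import Fermat.Agent.S28.Asm.Defs

/-!
# S28 (Igusa): the statement from the package deliverables
-/

set_option autoImplicit false
open AlgebraicGeometry CategoryTheory CategoryTheory.Limits ModularCurve ModularCurve.IgusaScheme
open scoped TensorProduct

noncomputable section

namespace Fermat.Agent.S28.Asm

/-- The lower bound `ψ(N) ≤ D_N` from the package deliverables. -/
theorem stDEG_of_packages (hDEG0 : StDEG0All) (hDEGU : StQEPC_DEGU) (hPRIME : StPRIMEAll)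
    (hDEG : StDEGAll) (N : ℕ) [NeZero N] (ℓ : ℕ) [Fact ℓ.Prime] (hℓN : ¬ ℓ ∣ N) :
    StDEG N ℓ :=
  hDEG hPRIME (fun M _ ℓ' _ => hDEGU M ℓ' (hDEG0 M)) N ℓ hℓN

/-- `QEP_B` for the three charts from the package deliverables. -/
theorem stQEPB_of_packages (hQEP : StQEP) (hDEG0 : StDEG0All) (hDEGU : StQEPC_DEGU)
    (hPRIME : StPRIMEAll) (hDEG : StDEGAll)
    (N : ℕ) [NeZero N] (ℓ : ℕ) [Fact ℓ.Prime] (hℓN : ¬ ℓ ∣ N) :
    StQEPB N ℓ {jFull N} ∧ StQEPB N ℓ {(jFull N)⁻¹} ∧ StQEPB N ℓ {jFull N, (jFull N)⁻¹} :=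
  hQEP N ℓ (hDEG0 N) (stDEG_of_packages hDEG0 hDEGU hPRIME hDEG N ℓ hℓN)

set_option maxHeartbeats 4000000 in
set_option synthInstance.maxHeartbeats 400000 in
/-- **S28 from `QEP_B` for the three charts** (packages SCH + TENS). -/
theorem result_of_qepb (hSCH : StSCH) (hTENS : StTENS)
    (N : ℕ) [NeZero N] (ℓ : ℕ) [Fact ℓ.Prime]
    (hfin : StQEPB N ℓ {jFull N}) (hinf : StQEPB N ℓ {(jFull N)⁻¹})
    (hmid : StQEPB N ℓ {jFull N, (jFull N)⁻¹})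
    (K : Type) [Field K] [CharP K ℓ] [Algebra ↥(GaloisRep.ratLocalizedAt ℓ) K] :
    IsIntegral ↑(pullback (igusaTo N ℓ)
      (Spec.map (CommRingCat.ofHom (algebraMap ↥(GaloisRep.ratLocalizedAt ℓ) K)))) := by
  have h1 : IsDomain (↥(chartAlgFin N ℓ) ⊗[Zl ℓ] K) := hTENS N ℓ _ K hfin
  have h2 : IsDomain (↥(chartAlgInf N ℓ) ⊗[Zl ℓ] K) := hTENS N ℓ _ K hinf
  have h3 : IsDomain (↥(chartAlgMid N ℓ) ⊗[Zl ℓ] K) := hTENS N ℓ _ K hmid
  have h3' : Nontrivial (↥(chartAlgMid N ℓ) ⊗[Zl ℓ] K) := h3.toNontrivial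
  exact hSCH N ℓ K h1 h2 h3'

set_option maxHeartbeats 4000000 in
set_option synthInstance.maxHeartbeats 400000 in
/-- **S28 from the package deliverables.** -/
theorem result_of_packages (hSCH : StSCH) (hTENS : StTENS) (hQEP : StQEP)
    (hDEG0 : StDEG0All) (hDEGU : StQEPC_DEGU) (hPRIME : StPRIMEAll) (hDEG : StDEGAll)
    (N : ℕ) [NeZero N] (ℓ : ℕ) [Fact ℓ.Prime] (hℓN : ¬ ℓ ∣ N)
    (K : Type) [Field K] [CharP K ℓ] [Algebra ↥(GaloisRep.ratLocalizedAt ℓ) K] :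
    IsIntegral ↑(pullback (igusaTo N ℓ)
      (Spec.map (CommRingCat.ofHom (algebraMap ↥(GaloisRep.ratLocalizedAt ℓ) K)))) := by
  obtain ⟨hfin, hinf, hmid⟩ := stQEPB_of_packages hQEP hDEG0 hDEGU hPRIME hDEG N ℓ hℓN
  exact result_of_qepb hSCH hTENS N ℓ hfin hinf hmid K

end Fermat.Agent.S28.Asm
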