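import Fermat.Agent.S28.Asm.H11_Wire4
import Fermat.Agent.S28.Alg.H6_QbFin
import Fermat.Agent.S28.Alg.H5_Sat
import Fermat.Agent.S28.Alg.H29_Degu

/-!
# S28: all packages wired

* `h11_stQEPC_DEGU : StQEPC_DEGU` (helper29);
* `h11_stQEP : StQEP` (helper6 `stQEP_of_sat`, helper5 `stSat_fin` / `stSat_inf`,
  helper29 `stBasis'`);
* `result_final` : the statement S28.
-/

set_option autoImplicit false
open AlgebraicGeometry CategoryTheory CategoryTheory.Limits ModularCurve ModularCurve.IgusaScheme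
open scoped TensorProduct

noncomputable section

namespace Fermat.Agent.S28.Asm

/-- **Deliverable DEGU of ALG, unconditionally.** -/
theorem h11_stQEPC_DEGU : StQEPC_DEGU := Fermat.Agent.S28.Alg.H29.stQEPC_DEGU

/-- **Deliverable QEP of ALG, unconditionally.** -/
theorem h11_stQEP : StQEP :=
  Fermat.Agent.S28.Alg.H6.stQEP_of_sat
    (fun N _ ℓ _ h0 h1 =>
      Fermat.Agent.S28.Alg.H5.stSat_fin ℓ N (Fermat.Agent.S28.Alg.H29.stBasis' N ℓ) h0 h1)
    (fun N _ ℓ _ h0 h1 =>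
      Fermat.Agent.S28.Alg.H5.stSat_inf ℓ N (Fermat.Agent.S28.Alg.H29.stBasis' N ℓ) h0 h1)

set_option maxHeartbeats 4000000 in
set_option synthInstance.maxHeartbeats 400000 in
/-- **S28 (Igusa)**: for `ℓ ∤ N`, the fibre of the Igusa model of `X₀(N)` over any field of
characteristic `ℓ` is integral. -/
theorem result_final
    (N : ℕ) [NeZero N] (ℓ : ℕ) [Fact ℓ.Prime] (hℓN : ¬ ℓ ∣ N)
    (K : Type) [Field K] [CharP K ℓ] [Algebra ↥(GaloisRep.ratLocalizedAt ℓ) K] :
    IsIntegral ↑(pullback (igusaTo N ℓ)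
      (Spec.map (CommRingCat.ofHom (algebraMap ↥(GaloisRep.ratLocalizedAt ℓ) K)))) :=
  result_of_alg h11_stQEP h11_stQEPC_DEGU N ℓ hℓN K

end Fermat.Agent.S28.Asm
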