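import Fermat.Agent.S28.Asm.H11_Asm
import Fermat.Agent.S28.SCH.H10_StSCH
import Fermat.Agent.S28.Alg.H6_TensFinal

/-!
# S28: wiring of the landed packages (SCH, TENS)

`result_of_open` : S28 from the deliverables that are still open
(`StQEP`, `StQEPC_DEGU` (ALG), `StPRIMEAll`, `StDEGAll` (DEG), `StDEG0All` (MOD)).
-/

set_option autoImplicit false
open AlgebraicGeometry CategoryTheory CategoryTheory.Limits ModularCurve ModularCurve.IgusaScheme
open scoped TensorProduct

noncomputable section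

namespace Fermat.Agent.S28.Asm

set_option maxHeartbeats 4000000 in
set_option synthInstance.maxHeartbeats 400000 in
/-- **S28 from `QEP_B` for the three charts** (SCH and TENS wired in). -/
theorem result_of_qepb' (N : ℕ) [NeZero N] (ℓ : ℕ) [Fact ℓ.Prime]
    (hfin : StQEPB N ℓ {jFull N}) (hinf : StQEPB N ℓ {(jFull N)⁻¹})
    (hmid : StQEPB N ℓ {jFull N, (jFull N)⁻¹})
    (K : Type) [Field K] [CharP K ℓ] [Algebra ↥(GaloisRep.ratLocalizedAt ℓ) K] :
    IsIntegral ↑(pullback (igusaTo N ℓ)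
      (Spec.map (CommRingCat.ofHom (algebraMap ↥(GaloisRep.ratLocalizedAt ℓ) K)))) :=
  result_of_qepb Fermat.Agent.S28.SCH.H10.stSCH Fermat.Agent.S28.Alg.stTENS N ℓ hfin hinf hmid K

set_option maxHeartbeats 4000000 in
set_option synthInstance.maxHeartbeats 400000 in
/-- **S28 from the open deliverables** (SCH and TENS wired in). -/
theorem result_of_open (hQEP : StQEP) (hDEG0 : StDEG0All) (hDEGU : StQEPC_DEGU)
    (hPRIME : StPRIMEAll) (hDEG : StDEGAll)
    (N : ℕ) [NeZero N] (ℓ : ℕ) [Fact ℓ.Prime] (hℓN : ¬ ℓ ∣ N)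
    (K : Type) [Field K] [CharP K ℓ] [Algebra ↥(GaloisRep.ratLocalizedAt ℓ) K] :
    IsIntegral ↑(pullback (igusaTo N ℓ)
      (Spec.map (CommRingCat.ofHom (algebraMap ↥(GaloisRep.ratLocalizedAt ℓ) K)))) :=
  result_of_packages Fermat.Agent.S28.SCH.H10.stSCH Fermat.Agent.S28.Alg.stTENS
    hQEP hDEG0 hDEGU hPRIME hDEG N ℓ hℓN K

end Fermat.Agent.S28.Asm
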