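import Fermat.Agent.S28.Asm.H11_Wire
import Fermat.Agent.S28.Deg.H8_DegAll

/-!
# S28: wiring of the landed packages (SCH, TENS, DEG)

`result_of_open2` : S28 from the deliverables that are still open
(`StQEP`, `StQEPC_DEGU` (ALG), `StPRIMEAll` (PRIME), `StDEG0All` (MOD)).
-/

set_option autoImplicit false
open AlgebraicGeometry CategoryTheory CategoryTheory.Limits ModularCurve ModularCurve.IgusaScheme
open scoped TensorProduct

noncomputable section

namespace Fermat.Agent.S28.Asm

set_option maxHeartbeats 4000000 in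
set_option synthInstance.maxHeartbeats 400000 in
/-- **S28 from the open deliverables** (SCH, TENS and DEG wired in). -/
theorem result_of_open2 (hQEP : StQEP) (hDEG0 : StDEG0All) (hDEGU : StQEPC_DEGU)
    (hPRIME : StPRIMEAll)
    (N : ℕ) [NeZero N] (ℓ : ℕ) [Fact ℓ.Prime] (hℓN : ¬ ℓ ∣ N)
    (K : Type) [Field K] [CharP K ℓ] [Algebra ↥(GaloisRep.ratLocalizedAt ℓ) K] :
    IsIntegral ↑(pullback (igusaTo N ℓ)
      (Spec.map (CommRingCat.ofHom (algebraMap ↥(GaloisRep.ratLocalizedAt ℓ) K)))) :=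
  result_of_open hQEP hDEG0 hDEGU hPRIME Fermat.Agent.S28.Deg.H8.stDEGAll N ℓ hℓN K

end Fermat.Agent.S28.Asm
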