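import Fermat.Agent.S28.Asm.H11_Wire2
import Fermat.Agent.S28.Mod.H23_Deg0

/-!
# S28: wiring of the landed packages (SCH, TENS, DEG, DEG0)

`result_of_open3` : S28 from the deliverables that are still open
(`StQEP`, `StQEPC_DEGU` (ALG), `StPRIMEAll` (PRIME)).
-/

set_option autoImplicit false
open AlgebraicGeometry CategoryTheory CategoryTheory.Limits ModularCurve ModularCurve.IgusaScheme
open scoped TensorProduct

noncomputable section

namespace Fermat.Agent.S28.Asm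

set_option maxHeartbeats 4000000 in
set_option synthInstance.maxHeartbeats 400000 in
/-- **S28 from the open deliverables** (SCH, TENS, DEG and DEG0 wired in). -/
theorem result_of_open3 (hQEP : StQEP) (hDEGU : StQEPC_DEGU) (hPRIME : StPRIMEAll)
    (N : ℕ) [NeZero N] (ℓ : ℕ) [Fact ℓ.Prime] (hℓN : ¬ ℓ ∣ N)
    (K : Type) [Field K] [CharP K ℓ] [Algebra ↥(GaloisRep.ratLocalizedAt ℓ) K] :
    IsIntegral ↑(pullback (igusaTo N ℓ)
      (Spec.map (CommRingCat.ofHom (algebraMap ↥(GaloisRep.ratLocalizedAt ℓ) K)))) :=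
  result_of_open2 hQEP Fermat.Agent.S28.Mod.H23.stDEG0All hDEGU hPRIME N ℓ hℓN K

/-- The degree upper bound `D_M ≤ ψ(M)` in every characteristic, from `StQEPC_DEGU` alone
(DEG0 wired in). -/
theorem stDEGU_of_open (hDEGU : StQEPC_DEGU) (M : ℕ) [NeZero M] (ℓ : ℕ) [Fact ℓ.Prime] :
    StDEGU M ℓ :=
  hDEGU M ℓ (Fermat.Agent.S28.Mod.H23.stDEG0All M)

/-- The degree lower bound `ψ(N) ≤ D_N` for `ℓ ∤ N`, from `StQEPC_DEGU` and `StPRIMEAll`
(DEG and DEG0 wired in). -/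
theorem stDEG_of_open (hDEGU : StQEPC_DEGU) (hPRIME : StPRIMEAll)
    (N : ℕ) [NeZero N] (ℓ : ℕ) [Fact ℓ.Prime] (hℓN : ¬ ℓ ∣ N) : StDEG N ℓ :=
  Fermat.Agent.S28.Deg.H8.stDEGAll hPRIME (fun M _ ℓ _ => stDEGU_of_open hDEGU M ℓ) N ℓ hℓN

end Fermat.Agent.S28.Asm
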