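import Fermat.Agent.S28.Asm.H11_Wire3
import Fermat.Agent.S28.Deg.H9_PrimeFinal
import Fermat.Agent.S28.Mod.H24_ModFinal
import Fermat.Agent.S28.Mod.H21_I3Final

/-!
# S28: wiring of the landed packages (SCH, TENS, DEG, DEG0, PRIME, MOD)

* `h11_stPRIMEAll : StPRIMEAll` (MOD-C and the integrality of the modular unit by helper24 /
  helper7, (I3) by helper21 / helper17, dichotomy by helper9, exclusion by helper21);
* `h11_stDEG` : the degree lower bound `ψ(N) ≤ D_N` for `ℓ ∤ N`, from `StQEPC_DEGU` alone;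
* `result_of_alg` : S28 from the two deliverables of package ALG.
-/

set_option autoImplicit false
open AlgebraicGeometry CategoryTheory CategoryTheory.Limits ModularCurve ModularCurve.IgusaScheme
open scoped TensorProduct

noncomputable section

namespace Fermat.Agent.S28.Asm

/-- **Deliverable of PRIME, unconditionally.** -/
theorem h11_stPRIMEAll : StPRIMEAll :=
  Fermat.Agent.S28.Deg.H9.stPRIMEAll_of_mod Fermat.Agent.S28.Mod.H24.h24_stModC_all
    Fermat.Agent.S28.Mod.H21I3.stI3_int Fermat.Agent.S28.Mod.H24.h24_stVInt_all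

/-- The degree lower bound `ψ(N) ≤ D_N` for `ℓ ∤ N`, from `StQEPC_DEGU` alone. -/
theorem h11_stDEG (hDEGU : StQEPC_DEGU)
    (N : ℕ) [NeZero N] (ℓ : ℕ) [Fact ℓ.Prime] (hℓN : ¬ ℓ ∣ N) : StDEG N ℓ :=
  stDEG_of_open hDEGU h11_stPRIMEAll N ℓ hℓN

set_option maxHeartbeats 4000000 in
set_option synthInstance.maxHeartbeats 400000 in
/-- **S28 from the two deliverables of package ALG** (everything else wired in). -/
theorem result_of_alg (hQEP : StQEP) (hDEGU : StQEPC_DEGU)
    (N : ℕ) [NeZero N] (ℓ : ℕ) [Fact ℓ.Prime] (hℓN : ¬ ℓ ∣ N)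
    (K : Type) [Field K] [CharP K ℓ] [Algebra ↥(GaloisRep.ratLocalizedAt ℓ) K] :
    IsIntegral ↑(pullback (igusaTo N ℓ)
      (Spec.map (CommRingCat.ofHom (algebraMap ↥(GaloisRep.ratLocalizedAt ℓ) K)))) :=
  result_of_open3 hQEP hDEGU h11_stPRIMEAll N ℓ hℓN K

end Fermat.Agent.S28.Asm
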