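import Fermat.Agent.S28.Asm.H27_Wire
import Fermat.Agent.S28.Mod.H24_ModFinal
import Fermat.Agent.S28.Mod.H21_I3Final

/-!
# S28: the packages MOD and DEG are closed (helper21)

With (M1) and (M3) (helper7 / helper24) and (I3) (`Mod.H21I3.stI3_int`) on `main`, the MOD inputs
of helper27's `result_of_inputs` are all available:

* `stModInputs : Asm.H27.StModInputs`;
* `stPRIMEAll : Asm.StPRIMEAll`;
* `result_of_alg` : S28 from the two ALG propositions `Asm.StQEP`, `Asm.StQEPC_DEGU` alone.
-/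

set_option autoImplicit false
open AlgebraicGeometry CategoryTheory CategoryTheory.Limits ModularCurve ModularCurve.IgusaScheme
open scoped TensorProduct

noncomputable section

namespace Fermat.Agent.S28.Asm.H21W

open Fermat.Agent.S28

/-- All MOD inputs of `PRIME`. -/
theorem stModInputs : Asm.H27.StModInputs :=
  ⟨Mod.H24.h24_stModC_all, Mod.H21I3.stI3_int, Mod.H24.h24_stVInt_all⟩

/-- **`StPRIMEAll`, unconditionally.** -/
theorem stPRIMEAll : Asm.StPRIMEAll := Asm.H27.stPRIMEAll_of_inputs stModInputs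

set_option maxHeartbeats 4000000 in
set_option synthInstance.maxHeartbeats 400000 in
/-- **S28 from the package ALG alone** (`StQEP` and `StQEPC_DEGU`). -/
theorem result_of_alg (hQEP : Asm.StQEP) (hDEGU : Asm.StQEPC_DEGU)
    (N : ℕ) [NeZero N] (ℓ : ℕ) [Fact ℓ.Prime] (hℓN : ¬ ℓ ∣ N)
    (K : Type) [Field K] [CharP K ℓ] [Algebra ↥(GaloisRep.ratLocalizedAt ℓ) K] :
    IsIntegral ↑(pullback (igusaTo N ℓ)
      (Spec.map (CommRingCat.ofHom (algebraMap ↥(GaloisRep.ratLocalizedAt ℓ) K)))) :=
  Asm.H27.result_of_inputs stModInputs hQEP hDEGU N ℓ hℓN K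

end Fermat.Agent.S28.Asm.H21W
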