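import Fermat.Agent.S28.Asm.H11_Wire
import Fermat.Agent.S28.Deg.H8_DegAll
import Fermat.Agent.S28.Deg.H9_PrimeAsm
import Fermat.Agent.S28.Deg.H21_Excl
import Fermat.Agent.S28.Mod.H23_Deg0

/-!
# S28: pre-wiring of the statement from the inputs that are still open (helper27, CI)

Everything landed so far (`SCH`, `TENS`, `DEG`, `DEG0`, the PRIME dichotomy/assembly and the
exclusion by the chain rule) is wired in.  What remains are exactly

* `MOD-C` : `∀ p prime, Deg.H9.StModC p`  (the modular equation, both relations);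
* `(I3)`  : `Deg.H21.StI3 ℤ`;
* `VInt`  : `∀ p ≠ ℓ, Deg.H21.StVInt (ZMod ℓ) p`  (the modular unit is integral over `k[j]`);
* `QEP`   : `Asm.StQEP` and `Asm.StQEPC_DEGU`  (package ALG).
-/

set_option autoImplicit false
open AlgebraicGeometry CategoryTheory CategoryTheory.Limits ModularCurve ModularCurve.IgusaScheme
open scoped TensorProduct

noncomputable section

namespace Fermat.Agent.S28.Asm.H27

open Fermat.Agent.S28

/-- The MOD inputs of `PRIME`, as one proposition. -/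
def StModInputs : Prop :=
  (∀ (p : ℕ) [NeZero p], p.Prime → Deg.H9.StModC p) ∧ Deg.H21.StI3 ℤ ∧
    ∀ (p : ℕ) [NeZero p] (ℓ : ℕ) [Fact ℓ.Prime], p.Prime → p ≠ ℓ →
      Deg.H21.StVInt (ZMod ℓ) p

/-- `p ≠ 0` in `ZMod ℓ` for primes `p ≠ ℓ`. -/
theorem natCast_ne_zero_of_prime_ne (p ℓ : ℕ) [Fact ℓ.Prime] (hp : p.Prime) (hpl : p ≠ ℓ) :
    ((p : ℕ) : ZMod ℓ) ≠ 0 := by
  intro h
  rw [ZMod.natCast_eq_zero_iff] at h
  exact hpl ((Nat.prime_dvd_prime_iff_eq (Fact.out : ℓ.Prime) hp).mp h).symm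

/-- **`StPRIMEAll` from the MOD inputs** (dichotomy + assembly of helper9, exclusion of
helper21). -/
theorem stPRIMEAll_of_inputs (h : StModInputs) : Asm.StPRIMEAll :=
  Deg.H9.stPRIMEAll_of h.1 fun p _ ℓ _ hp hpl =>
    Deg.H21.excl (ZMod ℓ) p hp.two_le (natCast_ne_zero_of_prime_ne p ℓ hp hpl)
      (Deg.H21.StI3.of_int h.2.1) (h.2.2 p ℓ hp hpl)

set_option maxHeartbeats 4000000 in
set_option synthInstance.maxHeartbeats 400000 in
/-- **S28 from the inputs that are still open** (MOD-C, (I3), VInt, QEP, DEGU). -/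
theorem result_of_inputs (hMOD : StModInputs) (hQEP : Asm.StQEP) (hDEGU : Asm.StQEPC_DEGU)
    (N : ℕ) [NeZero N] (ℓ : ℕ) [Fact ℓ.Prime] (hℓN : ¬ ℓ ∣ N)
    (K : Type) [Field K] [CharP K ℓ] [Algebra ↥(GaloisRep.ratLocalizedAt ℓ) K] :
    IsIntegral ↑(pullback (igusaTo N ℓ)
      (Spec.map (CommRingCat.ofHom (algebraMap ↥(GaloisRep.ratLocalizedAt ℓ) K)))) :=
  Asm.result_of_open hQEP Mod.H23.stDEG0All hDEGU (stPRIMEAll_of_inputs hMOD)
    Deg.H8.stDEGAll N ℓ hℓN K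

end Fermat.Agent.S28.Asm.H27
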