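import Fermat.Agent.S28.Asm.H27_Wire
import Fermat.Agent.S28.Mod.H24_ModFinal
import Fermat.Agent.S28.Mod.H21_I3Final

/-!
# S28: package MOD and package DEG/PRIME are closed (helper27, CI)

`stModInputs : StModInputs` from the landed MOD deliverables
(M1) `Mod.H24.h24_stModC_all`, (M2) `Mod.H21I3.stI3_int`, (M3) `Mod.H24.h24_stVInt_all`;
hence `stPRIMEAll : Asm.StPRIMEAll`, and S28 from package ALG alone
(`Asm.StQEP`, `Asm.StQEPC_DEGU`).
-/

set_option autoImplicit false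
open AlgebraicGeometry CategoryTheory CategoryTheory.Limits ModularCurve ModularCurve.IgusaScheme
open scoped TensorProduct

noncomputable section

namespace Fermat.Agent.S28.Asm.H27

open Fermat.Agent.S28

/-- **The MOD inputs of `PRIME`.** -/
theorem stModInputs : StModInputs :=
  ⟨Mod.H24.h24_stModC_all, Mod.H21I3.stI3_int, Mod.H24.h24_stVInt_all⟩

/-- **Deliverable `PRIME`**: `[k(j, j_p) : k(j)] = p + 1 = [k(j, j_p) : k(j_p)]` for all primes
`p ≠ ℓ`, `k = ZMod ℓ`. -/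
theorem stPRIMEAll : Asm.StPRIMEAll := stPRIMEAll_of_inputs stModInputs

/-- **Deliverable `DEG`**: `ψ(N) ≤ D_N` for `ℓ ∤ N`, from the upper bounds (package ALG). -/
theorem stDEG_of_degu (hDEGU : Asm.StQEPC_DEGU) (N : ℕ) [NeZero N] (ℓ : ℕ) [Fact ℓ.Prime]
    (hℓN : ¬ ℓ ∣ N) : Asm.StDEG N ℓ :=
  Asm.stDEG_of_packages Mod.H23.stDEG0All hDEGU stPRIMEAll Deg.H8.stDEGAll N ℓ hℓN

set_option maxHeartbeats 4000000 in
set_option synthInstance.maxHeartbeats 400000 in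
/-- **S28 from package ALG alone.** -/
theorem result_of_alg (hQEP : Asm.StQEP) (hDEGU : Asm.StQEPC_DEGU)
    (N : ℕ) [NeZero N] (ℓ : ℕ) [Fact ℓ.Prime] (hℓN : ¬ ℓ ∣ N)
    (K : Type) [Field K] [CharP K ℓ] [Algebra ↥(GaloisRep.ratLocalizedAt ℓ) K] :
    IsIntegral ↑(pullback (igusaTo N ℓ)
      (Spec.map (CommRingCat.ofHom (algebraMap ↥(GaloisRep.ratLocalizedAt ℓ) K)))) :=
  result_of_inputs stModInputs hQEP hDEGU N ℓ hℓN K

end Fermat.Agent.S28.Asm.H27
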